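import Fermat.Agent.RIB.Hard2.MP
import Fermat.Agent.ML.Main.Ctx

/-!
# ML / Low / Hard2 / MP : port of `RIB.hard_mp` from `ECtx` to `MCtx`
-/

set_option autoImplicit false
set_option linter.unusedSectionVars false
set_option linter.style.haveILetI false

noncomputable section

open AlgebraicCurve ModularCurve Module IsLocalRing

namespace Fermat.Agent.ML.Low

open Fermat.Agent.RIB Fermat.Agent.RIB.Rho Fermat.Agent.GAL Fermat.Agent.GAL.PC Fermat.Agent.TW.TR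

local notation "Qbar" => AlgebraicClosure ℚ
local notation "GQ" => (AlgebraicClosure ℚ ≃ₐ[ℚ] AlgebraicClosure ℚ)
local notation "M₂" => Matrix (Fin 2) (Fin 2)

variable {L p : ℕ} [NeZero L] [Fact p.Prime] {S : Set ℕ} {θ : ℕ → ℤ}
  {rbar0 : GQ →* M₂ (ZMod p)}
  {R : Type} [CommRing R] [IsLocalRing R] [Algebra (ZMod p) R] [Module R ↥(WS L p S θ)]
  {π0 : R →ₐ[ZMod p] ZMod p} {ρ : GQ →* M₂ R}
  {Φ : M₂ R →ₐ[R] Module.End R ↥(WS L p S θ)}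

/-- **`[KEY + MP ⟹ ε, Sg]`**  (board #2320). -/
theorem hard_mp {T : Finset ℕ} (EC : MCtx p T θ rbar0)
    (H : IsRho L p S θ rbar0 π0 ρ Φ) {q : ℕ} (hq : q.Prime) (hqp : q ≠ p)
    (A : ValuationSubring Qbar) (σ : GQ) (hdetσ : (rbar0 σ).det = ((q : ℕ) : ZMod p))
    (hunr : ∀ τ ∈ A.inertiaSubgroupIn ℚ, rbar0 τ = 1)
    (w : JZero L →+ JZero L) (hww : ∀ x, w (w x) = x)
    (hwg : ∀ (g : GQ) x, w (g • x) = g • w x)
    (hwθ : ∀ x ∈ thetaPart L p S θ, w x ∈ thetaPart L p S θ)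
    (hkey : ∀ x ∈ thetaPart L p S θ, (∀ τ ∈ A.inertiaSubgroupIn ℚ, τ • x = x) →
      σ • x + q • w x = 0) :
    ∃ c : ZMod p, c * c = 1 ∧ rbar0 σ = c • (1 : M₂ (ZMod p)) ∧ ((q : ℕ) : ZMod p) = 1 ∧
      (∀ a b, (ρ σ - algebraMap (ZMod p) R c • (1 : M₂ R)) a b ∈ maximalIdeal R) ∧
      ∀ x : ↥(WS L p S θ), (∀ τ ∈ A.inertiaSubgroupIn ℚ, τ • x = x) →
        Φ (ρ σ * ρ σ) x = x :=
  hard_mp_of_noLine EC.noLine H hq hqp A σ hdetσ hunr w hww hwg hwθ hkey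

end Fermat.Agent.ML.Low
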